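/-
S25 package CONN, shared piece (helper3648, `H3648/DomainTensor.lean` verbatim, namespace renamed): over an algebraically closed field `k`, the tensor product of two
`k`-algebras that are domains is a domain ("domain lemma", Nullstellensatz argument).
Mathlib-only.
-/
import Mathlib

set_option autoImplicit false

namespace Fermat.Agent.S25.CONN.Lib

open scoped TensorProduct

universe u v w

section Nullstellensatz

variable {k : Type u} [Field k] [IsAlgClosed k] {A : Type v} [CommRing A] [Algebra k A]

/-- Over an algebraically closed field every maximal ideal of a finitely generated algebra is the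
kernel of a `k`-point. -/
theorem exists_algHom_ker_eq_of_isMaximal [Algebra.FiniteType k A] (m : Ideal A)
    [hm : m.IsMaximal] : ∃ φ : A →ₐ[k] k, RingHom.ker (φ : A →+* k) = m := by
  letI := Ideal.Quotient.field m
  haveI : Module.Finite k (A ⧸ m) := finite_of_finite_type_of_isJacobsonRing k (A ⧸ m)
  have hbij : Function.Bijective (algebraMap k (A ⧸ m)) :=
    IsAlgClosed.algebraMap_bijective_of_isIntegral
  let e : k ≃ₐ[k] (A ⧸ m) := AlgEquiv.ofBijective (Algebra.ofId k (A ⧸ m)) hbij
  refine ⟨(e.symm : (A ⧸ m) →ₐ[k] k).comp (Ideal.Quotient.mkₐ k m), ?_⟩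
  ext x
  rw [RingHom.mem_ker]
  change e.symm (Ideal.Quotient.mk m x) = 0 ↔ x ∈ m
  rw [map_eq_zero_iff _ e.symm.injective, Ideal.Quotient.eq_zero_iff_mem]

/-- Nullstellensatz: an element of a reduced finitely generated algebra over an algebraically
closed field which vanishes at all `k`-points is zero. -/
theorem eq_zero_of_forall_algHom_eq_zero [Algebra.FiniteType k A] [IsReduced A] (c : A)
    (h : ∀ φ : A →ₐ[k] k, φ c = 0) : c = 0 := by
  haveI : IsJacobsonRing A := isJacobsonRing_of_finiteType (A := k)
  have hmem : c ∈ (⊥ : Ideal A).jacobson := by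
    rw [Ideal.jacobson, Ideal.mem_sInf]
    rintro m ⟨-, hm⟩
    obtain ⟨φ, hφ⟩ := exists_algHom_ker_eq_of_isMaximal (k := k) m
    rw [← hφ]
    exact h φ
  rw [IsJacobsonRing.out' (⊥ : Ideal A) Ideal.isRadical_bot] at hmem
  simpa using hmem

end Nullstellensatz

section Domain

variable (k : Type u) [Field k] [IsAlgClosed k]

/-- The domain lemma when the right factor is finitely generated. -/
theorem noZeroDivisors_tensor_of_finiteType
    (A : Type v) [CommRing A] [Algebra k A] [IsDomain A]
    (C : Type w) [CommRing C] [Algebra k C] [IsDomain C] [Algebra.FiniteType k C] :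
    NoZeroDivisors (A ⊗[k] C) := by
  classical
  let ℬ := Module.Basis.ofVectorSpace k A
  let e := TensorProduct.equivFinsuppOfBasisLeft (N := C) ℬ
  refine ⟨fun {x y} hxy => ?_⟩
  have key : ∀ i j, e x i * e y j = 0 := by
    intro i j
    apply eq_zero_of_forall_algHom_eq_zero (k := k)
    intro φ
    let ψ : A ⊗[k] C →ₐ[k] A :=
      (Algebra.TensorProduct.rid k k A).toAlgHom.comp
        (Algebra.TensorProduct.map (AlgHom.id k A) φ)
    have hψ : ∀ z : A ⊗[k] C, ∀ l, ℬ.repr (ψ z) l = φ (e z l) := by
      intro z l
      induction z using TensorProduct.induction_on with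
      | zero => simp
      | tmul a c =>
        have h1 : ψ (a ⊗ₜ[k] c) = φ c • a := by simp [ψ]
        have h2 : e (a ⊗ₜ[k] c) l = ℬ.repr a l • c :=
          TensorProduct.equivFinsuppOfBasisLeft_apply_tmul_apply ℬ a c l
        rw [h1, h2, map_smul, Finsupp.smul_apply, smul_eq_mul, map_smul, smul_eq_mul, mul_comm]
      | add z w hz hw => simp only [map_add, Finsupp.add_apply, hz, hw]
    have h0 : ψ x * ψ y = 0 := by rw [← map_mul, hxy, map_zero]
    rcases mul_eq_zero.mp h0 with h | h
    · have : φ (e x i) = 0 := by rw [← hψ, h]; simp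
      rw [map_mul, this, zero_mul]
    · have : φ (e y j) = 0 := by rw [← hψ, h]; simp
      rw [map_mul, this, mul_zero]
  by_cases hx : x = 0
  · exact Or.inl hx
  · right
    have hex : e x ≠ 0 := fun h0 => hx (e.injective (by rw [h0, map_zero]))
    obtain ⟨i, hi⟩ := Finsupp.ne_iff.mp hex
    apply e.injective
    rw [map_zero]
    ext j
    exact (mul_eq_zero.mp (key i j)).resolve_left (by simpa using hi)

/-- **Domain lemma.** Over an algebraically closed field, the tensor product of two domains has
no zero divisors. -/
theorem noZeroDivisors_tensor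
    (A : Type v) [CommRing A] [Algebra k A] [IsDomain A]
    (B : Type w) [CommRing B] [Algebra k B] [IsDomain B] :
    NoZeroDivisors (A ⊗[k] B) := by
  refine ⟨fun {x y} hxy => ?_⟩
  obtain ⟨Cx, hCx, hx⟩ := exists_fg_and_mem_baseChange x
  obtain ⟨Cy, hCy, hy⟩ := exists_fg_and_mem_baseChange y
  let C : Subalgebra k B := Cx ⊔ Cy
  have hC : C.FG := hCx.sup hCy
  have : Algebra.FiniteType k C := (Subalgebra.fg_iff_finiteType C).mp hC
  let f : A ⊗[k] C →ₐ[A] A ⊗[k] B := Algebra.TensorProduct.map (AlgHom.id A A) C.val
  have hf : Function.Injective f := by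
    have : (f : A ⊗[k] C → A ⊗[k] B) = (C.val.toLinearMap.lTensor A) := by
      ext z
      induction z using TensorProduct.induction_on with
      | zero => simp
      | tmul a c => simp [f]
      | add z w hz hw => simp only [map_add, hz, hw]
    rw [this]
    exact Module.Flat.lTensor_preserves_injective_linearMap _ Subtype.val_injective
  have hmono : ∀ (D : Subalgebra k B), D ≤ C → ∀ z ∈ D.baseChange A, ∃ z₀, f z₀ = z := by
    rintro D hD z ⟨z₀, rfl⟩
    refine ⟨Algebra.TensorProduct.map (AlgHom.id A A) (Subalgebra.inclusion hD) z₀, ?_⟩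
    induction z₀ using TensorProduct.induction_on with
    | zero => simp
    | tmul a c => simp [f]
    | add z w hz hw => simp only [map_add, hz, hw]
  obtain ⟨x₀, rfl⟩ := hmono Cx le_sup_left x hx
  obtain ⟨y₀, rfl⟩ := hmono Cy le_sup_right y hy
  have := noZeroDivisors_tensor_of_finiteType k A C
  have h0 : x₀ * y₀ = 0 := hf (by rw [map_mul, hxy, map_zero])
  rcases mul_eq_zero.mp h0 with h | h
  · left; rw [h, map_zero]
  · right; rw [h, map_zero]

/-- **Domain lemma.** Over an algebraically closed field, the tensor product of two domains is a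
domain. -/
theorem isDomain_tensor
    (A : Type v) [CommRing A] [Algebra k A] [IsDomain A]
    (B : Type w) [CommRing B] [Algebra k B] [IsDomain B] :
    IsDomain (A ⊗[k] B) := by
  have := noZeroDivisors_tensor k A B
  have : Nontrivial (A ⊗[k] B) := inferInstance
  exact NoZeroDivisors.to_isDomain _

end Domain

end Fermat.Agent.S25.CONN.Lib
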